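import Fermat.Agent.ModularAnalytic.InField
import Fermat.Agent.KummerES.LevelOne
import Fermat.Prelude.Def_ModularCurve_ArithmeticGalois
import Mathlib.RingTheory.RootsOfUnity.AlgebraicallyClosed

/-!
# Weakly holomorphic functions on `Γ₀(N)` as elements of the function field

`toField N L ι` sends a weakly holomorphic function with coefficients in `ι(K)` to its expansion at
infinity in `laurentBaseChange K (modularFunctionFieldFull N)`; every element of that field is a
quotient of two such expansions when `K` is algebraically closed.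
-/

set_option autoImplicit false

noncomputable section

open Filter Complex ModularCurve
open UpperHalfPlane hiding I
open scoped Topology MatrixGroups Manifold

namespace Fermat.Agent.ModularAnalytic

open Fermat.Agent.ModularFunctionField

local notation "𝕢" => Function.Periodic.qParam

/-- `KummerES.HasExp` implies `HasExp`. -/
theorem hasExp_of_kummer {L : ℕ} {f : ℍ → ℂ} {s : LaurentSeries ℂ} (h : KummerES.HasExp L f s) :
    HasExp L f s :=
  Eventually.of_forall h

theorem qParam_vadd (L : ℕ) [NeZero L] (τ : ℍ) :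
    𝕢 (L : ℝ) (((L : ℝ) +ᵥ τ : ℍ) : ℂ) = ((1 : ℂˣ) : ℂ) * 𝕢 (L : ℝ) τ ^ 1 := by
  have hL : (L : ℂ) ≠ 0 := by exact_mod_cast NeZero.ne L
  rw [pow_one, Units.val_one, one_mul, Function.Periodic.qParam, Function.Periodic.qParam,
    coe_vadd, Complex.exp_eq_exp_iff_exists_int]
  refine ⟨1, ?_⟩
  push_cast
  field_simp
  ring

/-- An expansion near infinity of a holomorphic function holds on all of the upper half plane. -/
theorem kummer_of_hasExp {L : ℕ} [NeZero L] {f : ℍ → ℂ} {s : LaurentSeries ℂ} (hol : MDiff f)
    (h : HasExp L f s) : KummerES.HasExp L f s := by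
  set k := s.order
  set g : ℍ → ℂ := fun τ => 1 * 𝕢 (L : ℝ) τ ^ (-k) * f τ with hg
  have hgs : HasExp L g (HahnSeries.single (-k) 1 * s) := (HasExp.single L (-k) 1).mul h
  have hq : MDiff fun τ : ℍ => 1 * 𝕢 (L : ℝ) τ ^ (-k) := by
    rw [UpperHalfPlane.mdifferentiable_iff]
    have hd : DifferentiableOn ℂ (fun z : ℂ => 1 * 𝕢 (L : ℝ) z ^ (-k)) upperHalfPlaneSet := by
      refine (DifferentiableOn.zpow ?_
          (Or.inl fun z _ => Function.Periodic.qParam_ne_zero z)).const_mul 1
      simp only [Function.Periodic.qParam]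
      fun_prop
    refine hd.congr fun z hz => ?_
    simp [ofComplex_apply_of_im_pos hz]
  have hgol : MDiff g := hq.mul hol
  -- periodicity
  have hper : ∀ τ : ℍ, g ((L : ℝ) +ᵥ τ) = g τ := by
    have h1 := hgs.comp (N := L) (fun τ => (L : ℝ) +ᵥ τ) (tendsto_vadd_atImInfty _) 1 1
      (qParam_vadd L)
    rw [subst_one, qExpand_one_apply] at h1
    have h2 : HasExp L (fun τ => g ((L : ℝ) +ᵥ τ) - g τ) 0 := (h1.sub hgs).congr_series (sub_self _)
    have hshift : MDiff fun τ : ℍ => g ((L : ℝ) +ᵥ τ) := by
      rw [UpperHalfPlane.mdifferentiable_iff] at hgol ⊢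
      refine (hgol.comp (s := upperHalfPlaneSet) (f := fun z : ℂ => z + (L : ℂ)) (by fun_prop)
        fun z hz => by simpa using hz).congr fun z hz => ?_
      simp only [Function.comp_apply, ofComplex_apply_of_im_pos hz]
      rw [ofComplex_apply_of_im_pos (show 0 < (z + (L : ℂ)).im by simpa using hz)]
      congr 1
      refine UpperHalfPlane.ext ?_
      simp [coe_vadd, add_comm]
    intro τ
    have := congrFun (eq_zero_of_hasExp_zero (hshift.sub hgol) h2) τ
    simpa [sub_eq_zero] using this
  have hbdd : IsBoundedAtImInfty g := (hgs.tendsto (NeZero.ne L) fun i hi => by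
    rw [HahnSeries.coeff_single_mul, one_mul, sub_neg_eq_add]
    exact HahnSeries.coeff_eq_zero_of_lt_order (by omega)).isBigO_one ℝ
  have hper' : Function.Periodic (g ∘ UpperHalfPlane.ofComplex) (L : ℝ) := by
    intro z
    rcases lt_or_ge 0 z.im with hz | hz
    · have hz' : 0 < (z + ((L : ℝ) : ℂ)).im := by simpa using hz
      simp only [Function.comp_apply, ofComplex_apply_of_im_pos hz, ofComplex_apply_of_im_pos hz']
      rw [← hper ⟨z, hz⟩]
      congr 1
      refine UpperHalfPlane.ext ?_
      simp [coe_vadd, add_comm]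
    · have hz' : (z + (L : ℂ)).im ≤ 0 := by simpa using hz
      simp [ofComplex_apply_of_im_nonpos hz, ofComplex_apply_of_im_nonpos hz']
  set t := HahnSeries.ofPowerSeries ℤ ℂ (UpperHalfPlane.qExpansion (L : ℝ) g)
  have hall : KummerES.HasExp L g t := by
    intro τ
    have h := UpperHalfPlane.hasSum_qExpansion
      (by exact_mod_cast Nat.pos_of_ne_zero (NeZero.ne L)) hper' hgol hbdd τ
    rw [← Nat.cast_injective.hasSum_iff (f := fun n : ℤ => t.coeff n * KummerES.qL L τ ^ n)
      (fun n hn => by
        rw [ofPowerSeries_coeff_of_neg _ (not_le.mp fun h0 => hn ⟨n.toNat, Int.toNat_of_nonneg h0⟩),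
          zero_mul])]
    refine h.congr_fun fun n => ?_
    rw [Function.comp_apply, HahnSeries.ofPowerSeries_apply_coeff, zpow_natCast, smul_eq_mul,
      KummerES.qL]
  have ht : t = HahnSeries.single (-k) 1 * s := (hasExp_of_kummer hall).unique (NeZero.ne L) hgs
  have hback := (KummerES.HasExp.single (L := L) k 1).mul (ht ▸ hall)
  rw [← mul_assoc, HahnSeries.single_mul_single, add_neg_cancel, mul_one,
      HahnSeries.single_zero_one,
    one_mul] at hback
  convert hback using 1
  funext τ
  simp only [hg, Pi.mul_apply, KummerES.qL, one_mul, zpow_neg]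
  rw [mul_inv_cancel_left₀ (zpow_ne_zero _ (Function.Periodic.qParam_ne_zero _))]

variable (N L : ℕ) [NeZero N] [NeZero L] {K : Type*} [Field K] [Algebra ℚ K] (ι : K →+* ℂ)

local notation "W" => KummerES.weak (CongruenceSubgroup.Gamma0 N) L ι.range

/-- The combined map from series over `K` to series of width `L` over `ℂ`. -/
def widen : LaurentSeries K →+* LaurentSeries ℂ := (qExpand ℂ L).comp (coeffMap ι)

omit [Algebra ℚ K] in
theorem widen_injective : Function.Injective (widen L ι) := fun _ _ h =>
  coeffMap_injective ι ι.injective (qExpand_injective L h)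

theorem exists_toField (f : W) :
    ∃ x : laurentBaseChange K (modularFunctionFieldFull N),
      widen L ι x = KummerES.expansion L f.1 := by
  obtain ⟨hol, hinv, hexp⟩ := f.2
  obtain ⟨s, hs, hs'⟩ := hexp 1
  rw [KummerES.comp_one] at hs'
  obtain ⟨x, hx, hxs⟩ := mem_functionField N ι f.1 hol (fun γ hγ τ => congrFun (hinv γ hγ) τ)
    (fun γ => let ⟨t, _, ht⟩ := hexp γ; ⟨t, hasExp_of_kummer ht⟩) (hasExp_of_kummer hs') hs
  exact ⟨⟨x, hx⟩, hxs.trans hs'.expansion_eq.symm⟩

/-- The expansion at infinity, as an element of the function field. -/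
def toField : W →+* laurentBaseChange K (modularFunctionFieldFull N) where
  toFun f := (exists_toField N L ι f).choose
  map_one' := Subtype.ext (widen_injective L ι (by
    rw [(exists_toField N L ι 1).choose_spec]
    simp [KummerES.HasExp.one.expansion_eq]))
  map_zero' := Subtype.ext (widen_injective L ι (by
    rw [(exists_toField N L ι 0).choose_spec]
    simp [KummerES.HasExp.zero.expansion_eq]))
  map_add' f g := Subtype.ext (widen_injective L ι (by
    rw [(exists_toField N L ι (f + g)).choose_spec, IntermediateField.coe_add, map_add,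
      (exists_toField N L ι f).choose_spec, (exists_toField N L ι g).choose_spec]
    simpa [KummerES.expAt_apply] using
      map_add (KummerES.expAt (CongruenceSubgroup.Gamma0 N) L ι.range 1) f g))
  map_mul' f g := Subtype.ext (widen_injective L ι (by
    rw [(exists_toField N L ι (f * g)).choose_spec, IntermediateField.coe_mul, map_mul,
      (exists_toField N L ι f).choose_spec, (exists_toField N L ι g).choose_spec]
    simpa [KummerES.expAt_apply] using
      map_mul (KummerES.expAt (CongruenceSubgroup.Gamma0 N) L ι.range 1) f g))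

/-- `toField` gives the expansion at infinity. -/
theorem qExpand_coeffMap_toField (f : W) :
    qExpand ℂ L (coeffMap ι (toField N L ι f : LaurentSeries K)) = KummerES.expansion L f.1 :=
  (exists_toField N L ι f).choose_spec

/-- `toField` is injective. -/
theorem toField_injective : Function.Injective (toField N L ι) := fun f g h => by
  refine KummerES.expAt_injective (1 : SL(2, ℤ)) ?_
  simp only [KummerES.expAt_apply, KummerES.comp_one]
  rw [← qExpand_coeffMap_toField N L ι, ← qExpand_coeffMap_toField N L ι, h]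

/-- `toField` is determined by the expansion at infinity. -/
theorem toField_eq {f : W} {x : LaurentSeries K}
    (h : HasExp L f.1 (qExpand ℂ L (coeffMap ι x))) :
    (toField N L ι f : LaurentSeries K) = x := by
  refine widen_injective L ι ?_
  show qExpand ℂ L (coeffMap ι _) = _
  rw [qExpand_coeffMap_toField]
  exact (kummer_of_hasExp f.2.1 h).expansion_eq

omit [Algebra ℚ K] in
/-- Roots of unity lie in the image of an algebraically closed field. -/
theorem mem_range_of_pow_eq_one [IsAlgClosed K] [CharZero K] {n : ℕ} [NeZero n] {z : ℂ}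
    (hz : z ^ n = 1) : z ∈ ι.range := by
  obtain ⟨ζ, hζ⟩ := HasEnoughRootsOfUnity.exists_primitiveRoot K n
  obtain ⟨i, -, hi⟩ := (hζ.map_of_injective ι.injective).eq_pow_of_pow_eq_one hz
  exact ⟨ζ ^ i, by rw [map_pow, hi]⟩

omit [Algebra ℚ K] in
theorem coeff_jTriSeries_mem [IsAlgClosed K] [CharZero K] {d : ℕ} [NeZero d] (M : Tri d) (i : ℤ) :
    (jTriSeries M).coeff i ∈ ι.range := by
  by_cases h : ((M.a * M.a : ℕ) : ℤ) ∣ i
  · obtain ⟨m, rfl⟩ := h
    rw [jTriSeries, subst_coeff_mul]
    refine mul_mem ?_ ?_
    · have hd : NeZero M.d := ⟨M.d_pos.ne'⟩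
      obtain ⟨a, ha⟩ := mem_range_of_pow_eq_one ι (n := M.d)
        (z := Complex.exp (2 * Real.pi * I * M.b / M.d)) (by
          rw [← Complex.exp_nat_mul]
          refine (Complex.exp_eq_one_iff).mpr ⟨M.b, ?_⟩
          have : (M.d : ℂ) ≠ 0 := by exact_mod_cast M.d_pos.ne'
          push_cast
          field_simp)
      refine ⟨a ^ m, ?_⟩
      rw [map_zpow₀, ha, Units.val_zpow_eq_zpow_val, Units.val_mk0]
    · rw [← coeffMap_jqC ι, coeffMap_coeff]
      exact ⟨_, rfl⟩
  · rw [jTriSeries, subst_coeff_of_not_dvd _ _ _ h]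
    exact zero_mem _

omit [NeZero N] [Algebra ℚ K] in
/-- `τ ↦ j (d τ)` is weakly holomorphic of level `N` for `d ∣ N`. -/
theorem jN_mem_weak [IsAlgClosed K] [CharZero K] {d : ℕ} [NeZero d] (hd : d ∣ N) (hL : d ∣ L) :
    jN d ∈ W := by
  obtain ⟨k, hk⟩ := hL
  have : NeZero k := ⟨fun h => NeZero.ne L (by simp [hk, h])⟩
  refine ⟨mdiff_jN d, fun γ hγ => funext fun τ => jN_smul_of_mem (?_) τ, fun δ => ?_⟩
  · rw [CongruenceSubgroup.Gamma0_mem, ZMod.intCast_zmod_eq_zero_iff_dvd] at hγ ⊢
    exact (Int.natCast_dvd_natCast.mpr hd).trans hγ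
  · refine ⟨qExpand ℂ k (jTriSeries (Tri.act δ (Tri.top : Tri d))), fun i => ?_,
      kummer_of_hasExp (KummerES.mdiff_comp (mdiff_jN d) δ)
        (((hasExp_jTri _).qExpand k hk (NeZero.ne d)).congr fun τ => (jN_smul d δ τ).symm)⟩
    by_cases hi : (k : ℤ) ∣ i
    · obtain ⟨m, rfl⟩ := hi
      rw [qExpand_coeff_mul]
      exact coeff_jTriSeries_mem ι _ m
    · rw [qExpand_coeff_of_not_dvd k _ hi]
      exact zero_mem _

/-- `toField` sends `j (d τ)` to the series `j (q ^ d)`. -/
theorem toField_jN [IsAlgClosed K] [CharZero K] {d : ℕ} [NeZero d] (hd : d ∣ N) (hL : d ∣ L) :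
    (toField N L ι ⟨jN d, jN_mem_weak N L ι hd hL⟩ : LaurentSeries K) =
      qExpand K d (jqModC K) := by
  refine toField_eq N L ι (((hasExp_jN d).qExpand L (one_mul L).symm one_ne_zero).congr_series ?_)
  rw [coeffMap_qExpand', coeffMap_jqC, jqNModC]

/-- Every element of the function field is a quotient of two weakly holomorphic functions. -/
theorem exists_eq_div [IsAlgClosed K] [CharZero K] (hN : N ∣ L)
    (x : laurentBaseChange K (modularFunctionFieldFull N)) :
    ∃ a b : W, toField N L ι b ≠ 0 ∧ x = toField N L ι a / toField N L ι b := by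
  revert x
  set F := laurentBaseChange K (modularFunctionFieldFull N)
  set e := toField N L ι
  intro x
  suffices hx : (x : LaurentSeries K) ∈
      Subfield.closure (Set.range fun a : W => ((e a : F) : LaurentSeries K)) by
    have hrange : (Set.range fun a : W => ((e a : F) : LaurentSeries K)) =
        ((F.val.toRingHom.comp e).range : Set (LaurentSeries K)) := by
      ext y; simp
    rw [hrange, Subfield.mem_closure_iff] at hx
    obtain ⟨y, hy, z, hz, hyz⟩ := hx
    rw [Subring.closure_eq] at hy hz
    obtain ⟨a, rfl⟩ := hy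
    obtain ⟨b, rfl⟩ := hz
    by_cases hb : e b = 0
    · refine ⟨0, 1, by simp, ?_⟩
      rw [map_zero, map_one, zero_div]
      refine Subtype.ext ?_
      rw [← hyz]
      simp [hb]
    · exact ⟨a, b, hb, Subtype.ext (by rw [← hyz]; simp)⟩
  set S : Subfield (LaurentSeries K) :=
    Subfield.closure (Set.range fun a : W => ((e a : F) : LaurentSeries K))
  have hconst : ∀ c : K, algebraMap K (LaurentSeries K) c ∈ S := fun c => by
    refine Subfield.subset_closure ⟨⟨fun _ => ι c, KummerES.const_mem_weak ⟨c, rfl⟩⟩, ?_⟩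
    refine toField_eq N L ι ((HasExp.const L (ι c)).congr_series ?_)
    rw [algebraMap_laurentSeries_eq_single, coeffMap_single, qExpand_single, mul_zero,
      HahnSeries.C_apply]
  let S' : IntermediateField K (LaurentSeries K) := { S with algebraMap_mem' := hconst }
  have hle : F ≤ S' := by
    refine IntermediateField.adjoin_le_iff.mpr ?_
    rintro _ ⟨y, hy, rfl⟩
    induction hy using IntermediateField.adjoin_induction with
    | mem y hy =>
      obtain ⟨d, hne, hd, rfl⟩ := hy
      refine Subfield.subset_closure ⟨⟨jN d, jN_mem_weak N L ι hd (hd.trans hN)⟩, ?_⟩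
      show (e _ : LaurentSeries K) = _
      rw [toField_jN N L ι hd (hd.trans hN), coeffEmb_qExpand_jq]
    | algebraMap c =>
      rw [algebraMap_apply_eq_single, coeffEmb, coeffMap_single,
        ← algebraMap_laurentSeries_eq_single]
      exact hconst _
    | add y z _ _ hy hz => rw [map_add]; exact S'.add_mem hy hz
    | inv y _ hy => rw [map_inv₀]; exact S'.inv_mem hy
    | mul y z _ _ hy hz => rw [map_mul]; exact S'.mul_mem hy hz
  exact hle x.2

end Fermat.Agent.ModularAnalytic
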