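import Fermat.Prelude.Def_ModularCurve_LaurentCoeff

/-!
# Descent of quotients of Laurent series along a field embedding
-/

set_option autoImplicit false

noncomputable section

open HahnSeries ModularCurve

namespace Fermat.Agent.ModularAnalytic

variable {K L : Type*} [Field K] [Field L] (ι : K →+* L)

/-- A retraction of `ι`, additive and `K`-linear. -/
structure Retraction where
  /-- The map. -/
  toHom : L →+ K
  map_mul : ∀ a z, toHom (ι a * z) = a * toHom z

variable {ι}

/-- Some `K`-linear retraction of `ι` takes the value `1` at `c ≠ 0`. -/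
theorem exists_retraction (c : L) (hc : c ≠ 0) : ∃ r : Retraction ι, r.toHom c = 1 := by
  let : Algebra K L := ι.toAlgebra
  obtain ⟨g, hg⟩ := (LinearMap.toSpanSingleton K L c).exists_leftInverse_of_injective
    (LinearMap.ker_eq_bot.mpr (smul_left_injective K hc))
  refine ⟨⟨g.toAddMonoidHom, fun a z => ?_⟩, ?_⟩
  · show g (ι a * z) = a * g z
    rw [← RingHom.algebraMap_toAlgebra ι, ← Algebra.smul_def, map_smul, smul_eq_mul]
  · simpa using LinearMap.congr_fun hg (1 : K)

namespace Retraction

variable (r : Retraction ι)

/-- Apply the retraction to every coefficient. -/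
def series (s : LaurentSeries L) : LaurentSeries K := s.map r.toHom

@[simp] theorem series_coeff (s : LaurentSeries L) (n : ℤ) :
    (r.series s).coeff n = r.toHom (s.coeff n) := rfl

theorem series_add (s t : LaurentSeries L) : r.series (s + t) = r.series s + r.series t := by
  ext n; simp

@[simp] theorem series_zero : r.series 0 = 0 := by
  ext n; simp

theorem series_coeffMap_mul (x : LaurentSeries K) (s : LaurentSeries L) :
    r.series (coeffMap ι x * s) = x * r.series s := by
  ext n
  have h1 : (coeffMap ι x).support ⊆ x.support := fun i hi h0 => hi (by simp [h0])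
  have h2 : (r.series s).support ⊆ s.support := fun i hi h0 => hi (by simp [h0])
  rw [series_coeff, HahnSeries.coeff_mul_left' x.isPWO_support h1,
    HahnSeries.coeff_mul_right' s.isPWO_support h2, map_sum]
  exact Finset.sum_congr rfl fun p _ => by rw [coeffMap_coeff, r.map_mul, series_coeff]

theorem series_smul (z : L) (x : LaurentSeries K) :
    r.series (z • coeffMap ι x) = algebraMap K (LaurentSeries K) (r.toHom z) * x := by
  ext n
  rw [series_coeff, HahnSeries.coeff_smul, algebraMap_laurentSeries_eq_single,
    HahnSeries.coeff_single_zero_mul, coeffMap_coeff, smul_eq_mul, mul_comm z, r.map_mul, mul_comm]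

end Retraction

theorem series_mem {F : IntermediateField K (LaurentSeries K)} (r : Retraction ι)
    {s : LaurentSeries L} (hs : s ∈ Submodule.span L (coeffMap ι '' (F : Set (LaurentSeries K)))) :
    r.series s ∈ F := by
  induction hs using Submodule.span_induction generalizing r with
  | mem y hy =>
    obtain ⟨x, hx, rfl⟩ := hy
    rw [← one_smul L (coeffMap ι x), r.series_smul]
    exact F.mul_mem (F.algebraMap_mem _) hx
  | zero => rw [r.series_zero]; exact F.zero_mem
  | add y y' _ _ h h' => rw [r.series_add]; exact F.add_mem (h r) (h' r)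
  | smul z y _ h =>
    let r' : Retraction ι :=
      ⟨r.toHom.comp (AddMonoidHom.mulLeft z), fun a w => by
        simp only [AddMonoidHom.comp_apply, AddMonoidHom.coe_mulLeft]
        rw [mul_left_comm, r.map_mul]⟩
    have : r.series (z • y) = r'.series y := by
      ext n; simp [r', HahnSeries.coeff_smul]
    rw [this]
    exact h r'

/-- If `x P = Q` with `P ≠ 0` and `P`, `Q` in the span of a subfield `F` over the big field, then
`x ∈ F`. -/
theorem mem_of_mul_eq (F : IntermediateField K (LaurentSeries K)) (x : LaurentSeries K)
    {P Q : LaurentSeries L}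
    (hP : P ∈ Submodule.span L (coeffMap ι '' (F : Set (LaurentSeries K))))
    (hQ : Q ∈ Submodule.span L (coeffMap ι '' (F : Set (LaurentSeries K))))
    (hP0 : P ≠ 0) (h : coeffMap ι x * P = Q) : x ∈ F := by
  obtain ⟨n, hn⟩ : ∃ n, P.coeff n ≠ 0 := by
    by_contra hcon
    push Not at hcon
    exact hP0 (HahnSeries.ext (funext hcon))
  obtain ⟨r, hr⟩ := exists_retraction (ι := ι) _ hn
  have hne : r.series P ≠ 0 := fun h0 => one_ne_zero (α := K) (by
    rw [← hr, ← r.series_coeff, h0, HahnSeries.coeff_zero])
  have hx : x * r.series P = r.series Q := by rw [← r.series_coeffMap_mul, h]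
  rw [eq_div_of_mul_eq hne hx]
  exact F.div_mem (series_mem r hQ) (series_mem r hP)

/-- A series with coefficients in the image of `ι` comes from `K`. -/
theorem exists_coeffMap_eq {s : LaurentSeries L} (hs : ∀ i, s.coeff i ∈ ι.range) :
    ∃ x : LaurentSeries K, coeffMap ι x = s := by
  obtain ⟨r, hr⟩ := exists_retraction (ι := ι) 1 one_ne_zero
  refine ⟨r.series s, HahnSeries.ext (funext fun i => ?_)⟩
  obtain ⟨a, ha⟩ := hs i
  rw [coeffMap_coeff, r.series_coeff, ← ha, ← mul_one (ι a), r.map_mul, hr, mul_one, mul_one]

end Fermat.Agent.ModularAnalytic
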