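import Fermat.Agent.ModularAnalytic.Interp
import Fermat.Agent.ModularAnalytic.Descent
import Fermat.Prelude.Def_ModularCurve_JqCoeff

/-!
# Expansions of `Γ₀(N)`-invariant functions lie in the function field
-/

set_option autoImplicit false

noncomputable section

open Filter Complex ModularCurve Polynomial
open UpperHalfPlane hiding I
open scoped Topology MatrixGroups Manifold

namespace Fermat.Agent.ModularAnalytic

open Fermat.Agent.ModularFunctionField

local notation "𝕢" => Function.Periodic.qParam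

variable (N : ℕ) [NeZero N]

/-- Evaluation at `j(q)`, `j(q^N)`. -/
def evalJJ (P : Polynomial (Polynomial ℂ)) : LaurentSeries ℂ :=
  P.eval₂ (Polynomial.eval₂RingHom HahnSeries.C (jqModC ℂ)) (jqNModC ℂ N)

/-- `jN N` has the expansion `j (q ^ N)`. -/
theorem hasExp_jN : HasExp 1 (jN N) (jqNModC ℂ N) := by
  have h := hasExp_jFun.comp (N := 1) (Tri.top : Tri N).map (Tri.top : Tri N).tendsto_map 1 N
    fun τ => ?_
  · rw [subst_one] at h
    exact h
  · rw [Units.val_one, one_mul, Function.Periodic.qParam, Function.Periodic.qParam,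
      ← Complex.exp_nat_mul, Tri.coe_map, top_a, top_b, top_d]
    congr 1
    push_cast
    ring

theorem hasExp_eval_jFun (c : Polynomial ℂ) :
    HasExp 1 (fun τ => c.eval (jFun τ)) (c.eval₂ HahnSeries.C (jqModC ℂ)) := by
  induction c using Polynomial.induction_on' with
  | add p q hp hq => simpa [Polynomial.eval_add, Polynomial.eval₂_add] using hp.add hq
  | monomial n a =>
    simpa [Polynomial.eval_monomial, Polynomial.eval₂_monomial] using
      (HasExp.const 1 a).mul (hasExp_jFun.pow n)

theorem hasExp_eval (P : Polynomial (Polynomial ℂ)) :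
    HasExp 1 (fun τ => P.eval₂ (Polynomial.evalRingHom (jFun τ)) (jN N τ)) (evalJJ N P) := by
  induction P using Polynomial.induction_on' with
  | add p q hp hq => simpa [evalJJ, Polynomial.eval₂_add] using hp.add hq
  | monomial n c =>
    simpa [evalJJ, Polynomial.eval₂_monomial] using
      (hasExp_eval_jFun c).mul ((hasExp_jN N).pow n)

theorem mdiff_eval (P : Polynomial (Polynomial ℂ)) :
    MDiff fun τ => P.eval₂ (Polynomial.evalRingHom (jFun τ)) (jN N τ) := by
  induction P using Polynomial.induction_on' with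
  | add p q hp hq =>
    simp only [Polynomial.eval₂_add]
    exact hp.add hq
  | monomial n c =>
    simp only [Polynomial.eval₂_monomial, Polynomial.coe_evalRingHom]
    refine MDifferentiable.mul ?_ ((mdiff_jN N).pow n)
    induction c using Polynomial.induction_on' with
    | add p q hp hq => simp only [Polynomial.eval_add]; exact hp.add hq
    | monomial m a =>
      simp only [Polynomial.eval_monomial]
      exact mdifferentiable_const.mul (mdiff_jFun.pow m)

/-- A holomorphic function with zero expansion vanishes. -/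
theorem eq_zero_of_hasExp_zero {M : ℕ} {f : ℍ → ℂ} (hol : MDiff f) (h : HasExp M f 0) : f = 0 := by
  obtain ⟨A, hA⟩ := (atImInfty_mem _).mp (h.mono fun τ hτ =>
    (hτ.unique (by simp) : f τ = 0))
  have han : AnalyticOnNhd ℂ (f ∘ UpperHalfPlane.ofComplex) upperHalfPlaneSet :=
    (UpperHalfPlane.mdifferentiable_iff.mp hol).analyticOnNhd isOpen_upperHalfPlaneSet
  set z₀ : ℂ := ((max A 0 + 1 : ℝ) : ℂ) * Complex.I
  have hz₀ : z₀.im = max A 0 + 1 := by simp [z₀]
  have hmem : z₀ ∈ upperHalfPlaneSet := by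
    show 0 < z₀.im
    rw [hz₀]; have := le_max_right A 0; linarith
  have hev : (f ∘ UpperHalfPlane.ofComplex) =ᶠ[𝓝 z₀] 0 := by
    have : {z : ℂ | max A 0 < z.im} ∈ 𝓝 z₀ :=
      (isOpen_lt continuous_const Complex.continuous_im).mem_nhds (by
        show max A 0 < z₀.im
        rw [hz₀]; linarith)
    filter_upwards [this] with z hz
    have h0 : 0 < z.im := lt_of_le_of_lt (le_max_right A 0) hz
    rw [Function.comp_apply, ofComplex_apply_of_im_pos h0]
    exact hA ⟨z, h0⟩ ((le_max_left A 0).trans hz.le)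
  have hpre : IsPreconnected upperHalfPlaneSet :=
    (convex_halfSpace_im_gt 0).isPreconnected
  funext τ
  have := han.eqOn_zero_of_preconnected_of_eventuallyEq_zero hpre hmem hev τ.im_pos
  simpa using this

/-- The expansion at infinity of an invariant function is rational in `j(q)`, `j(q^N)`. -/
theorem exists_evalJJ {L : ℕ} [NeZero L] (f : ℍ → ℂ) (hol : MDiff f)
    (hinv : ∀ γ ∈ CongruenceSubgroup.Gamma0 N, ∀ τ, f (γ • τ) = f τ)
    (hexp : ∀ γ : SL(2, ℤ), ∃ s, HasExp L (fun τ => f (γ • τ)) s)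
    {s : LaurentSeries ℂ} (hs : HasExp L f s) :
    ∃ P Q : Polynomial (Polynomial ℂ), evalJJ N P ≠ 0 ∧
      s * qExpand ℂ L (evalJJ N P) = qExpand ℂ L (evalJJ N Q) := by
  obtain ⟨P, Q, heq, τ₀, hne⟩ := exists_interpolation N f hol hinv hexp
  refine ⟨P, Q, fun h0 => hne ?_, ?_⟩
  · exact congrFun (eq_zero_of_hasExp_zero (mdiff_eval N P) (h0 ▸ hasExp_eval N P)) τ₀
  · exact (hs.mul ((hasExp_eval N P).qExpand L (one_mul L).symm one_ne_zero)).unique (NeZero.ne L)
      (((hasExp_eval N Q).qExpand L (one_mul L).symm one_ne_zero).congr fun τ => (heq τ).symm)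

variable {K : Type*} [Field K] [Algebra ℚ K]

/-- The image in `K` of the series `j (q ^ d)`. -/
theorem coeffEmb_qExpand_jq (d : ℕ) [NeZero d] :
    coeffEmb K (qExpand ℚ d jq) = qExpand K d (jqModC K) := by
  rw [coeffEmb, coeffMap_qExpand', ← jqModC_rat, coeffMap_jqC]

omit [NeZero N] in
theorem qExpand_jqC_mem {d : ℕ} [NeZero d] (hd : d ∣ N) :
    qExpand K d (jqModC K) ∈ laurentBaseChange K (modularFunctionFieldFull N) :=
  coeffEmb_qExpand_jq (K := K) d ▸ coeffEmb_mem_laurentBaseChange K (jqd_mem_full N hd)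

omit [NeZero N] in
theorem jqC_mem : jqModC K ∈ laurentBaseChange K (modularFunctionFieldFull N) := by
  simpa [qExpand_one_apply] using qExpand_jqC_mem N (K := K) (one_dvd N)

theorem evalJJ_mem_span (ι : K →+* ℂ) (P : Polynomial (Polynomial ℂ)) :
    evalJJ N P ∈ Submodule.span ℂ (coeffMap ι ''
      (laurentBaseChange K (modularFunctionFieldFull N) : Set (LaurentSeries K))) := by
  set F := laurentBaseChange K (modularFunctionFieldFull N)
  set S : Submonoid (LaurentSeries ℂ) := F.toSubfield.toSubmonoid.map (coeffMap ι).toMonoidHom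
  have hS : (S : Set (LaurentSeries ℂ)) = coeffMap ι '' (F : Set (LaurentSeries K)) := rfl
  have hA : evalJJ N P ∈ Algebra.adjoin ℂ (S : Set (LaurentSeries ℂ)) := by
    have hC : ∀ a : ℂ, (HahnSeries.C a : LaurentSeries ℂ) ∈
        Algebra.adjoin ℂ (S : Set (LaurentSeries ℂ)) := fun a => by
      rw [HahnSeries.C_apply, ← algebraMap_laurentSeries_eq_single]
      exact Subalgebra.algebraMap_mem _ a
    have hj : jqModC ℂ ∈ Algebra.adjoin ℂ (S : Set (LaurentSeries ℂ)) := by
      refine Algebra.subset_adjoin ?_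
      rw [hS]
      exact ⟨_, jqC_mem N, coeffMap_jqC ι⟩
    have hjN : jqNModC ℂ N ∈ Algebra.adjoin ℂ (S : Set (LaurentSeries ℂ)) := by
      refine Algebra.subset_adjoin ?_
      rw [hS]
      refine ⟨_, qExpand_jqC_mem N (dvd_refl N), ?_⟩
      rw [coeffMap_qExpand', coeffMap_jqC, jqNModC]
    rw [evalJJ, Polynomial.eval₂_eq_sum]
    refine Subalgebra.sum_mem _ fun i _ => Subalgebra.mul_mem _ ?_ (Subalgebra.pow_mem _ hjN i)
    rw [Polynomial.coe_eval₂RingHom, Polynomial.eval₂_eq_sum]
    exact Subalgebra.sum_mem _ fun m _ =>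
      Subalgebra.mul_mem _ (hC _) (Subalgebra.pow_mem _ hj m)
  have : evalJJ N P ∈ (Algebra.adjoin ℂ (S : Set (LaurentSeries ℂ))).toSubmodule := hA
  rw [Algebra.adjoin_eq_span, Submonoid.closure_eq, hS] at this
  -- the module structure of the algebra is the coefficientwise one
  refine @Submodule.span_induction ℂ (LaurentSeries ℂ) _ _ Algebra.toModule _
    (fun x _ => x ∈ Submodule.span ℂ (coeffMap ι ''
      (laurentBaseChange K (modularFunctionFieldFull N) : Set (LaurentSeries K))))
        ?_ ?_ ?_ ?_ _ this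
  · exact fun x hx => Submodule.subset_span hx
  · exact Submodule.zero_mem _
  · exact fun x y _ _ hx hy => Submodule.add_mem _ hx hy
  · intro c x _ hx
    rw [Algebra.smul_def, algebraMap_laurentSeries_eq_single, HahnSeries.single_zero_mul_eq_smul]
    exact Submodule.smul_mem _ c hx

/-- **Modular functions with coefficients in `K` lie in the function field over `K`.** -/
theorem mem_functionField (ι : K →+* ℂ) {L : ℕ} [NeZero L] (f : ℍ → ℂ) (hol : MDiff f)
    (hinv : ∀ γ ∈ CongruenceSubgroup.Gamma0 N, ∀ τ, f (γ • τ) = f τ)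
    (hexp : ∀ γ : SL(2, ℤ), ∃ s, HasExp L (fun τ => f (γ • τ)) s)
    {s : LaurentSeries ℂ} (hs : HasExp L f s) (hcoeff : ∀ i, s.coeff i ∈ ι.range) :
    ∃ x ∈ laurentBaseChange K (modularFunctionFieldFull N),
      qExpand ℂ L (coeffMap ι x) = s := by
  obtain ⟨P, Q, hP, hPQ⟩ := exists_evalJJ N f hol hinv hexp hs
  set t := evalJJ N Q / evalJJ N P
  have hst : s = qExpand ℂ L t := by
    rw [map_div₀, eq_div_iff ((map_ne_zero_iff _ (qExpand_injective L)).mpr hP), hPQ]
  obtain ⟨x, hx⟩ := exists_coeffMap_eq (ι := ι) (s := t) fun i => by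
    have := hcoeff ((L : ℤ) * i)
    rwa [hst, qExpand_coeff_mul] at this
  refine ⟨x, mem_of_mul_eq _ x (evalJJ_mem_span N ι P) (evalJJ_mem_span N ι Q) hP ?_,
    by rw [hx, hst]⟩
  rw [hx, div_mul_cancel₀ _ hP]

end Fermat.Agent.ModularAnalytic
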