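import Fermat.Agent.ModularFunctionField.InvariantPoly
import Fermat.Agent.ModularFunctionField.Triples

/-!
# The functions `τ ↦ j (N γ τ)`

They have Laurent expansions of width `N` at `i∞`, and `γ ↦ j (N γ τ)` separates the left cosets
of `Γ₀(N)`.
-/

set_option autoImplicit false

noncomputable section

open Filter Complex ModularCurve
open UpperHalfPlane hiding I
open scoped Topology MatrixGroups Manifold

namespace Fermat.Agent.ModularAnalytic

open Fermat.Agent.ModularFunctionField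

local notation "𝕢" => Function.Periodic.qParam

variable (N : ℕ) [NeZero N]

/-- `τ ↦ j (N τ)`. -/
def jN (τ : ℍ) : ℂ := jFun ((Tri.top : Tri N).map τ)

/-- The upper left entry of `Tri.top` is `N`. -/
lemma top_a : (Tri.top : Tri N).a = N := rfl
/-- The upper right entry of `Tri.top` is `0`. -/
lemma top_b : (Tri.top : Tri N).b = 0 := rfl
/-- The lower right entry of `Tri.top` is `1`. -/
lemma top_d : (Tri.top : Tri N).d = 1 := rfl

/-- `jN N` is holomorphic. -/
theorem mdiff_jN : MDiff (jN N) := (Tri.top : Tri N).mdiff_comp mdiff_jFun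

/-- A translate of `jN N` is `j` composed with an integral triangular matrix. -/
theorem jN_smul (γ : SL(2, ℤ)) (τ : ℍ) :
    jN N (γ • τ) = jFun ((Tri.act γ (Tri.top : Tri N)).map τ) := by
  rw [jN, ((Tri.top : Tri N).map_smul γ τ).1, jFun_invariant]

variable {N}

theorem qParam_map (M : Tri N) (τ : ℍ) :
    𝕢 ((1 : ℕ) : ℝ) (M.map τ : ℂ) =
      ((Units.mk0 (Complex.exp (2 * Real.pi * I * M.b / M.d)) (Complex.exp_ne_zero _) : ℂˣ) : ℂ) *
        𝕢 (N : ℝ) τ ^ (M.a * M.a) := by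
  rw [Units.val_mk0, Function.Periodic.qParam, Function.Periodic.qParam, ← Complex.exp_nat_mul,
    ← Complex.exp_add, Tri.coe_map]
  congr 1
  have hN : (M.a : ℂ) * M.d = N := by exact_mod_cast M.a_mul_d
  have hd : (M.d : ℂ) ≠ 0 := by exact_mod_cast M.d_pos.ne'
  have ha : (M.a : ℂ) ≠ 0 := by exact_mod_cast M.a_pos.ne'
  push_cast
  rw [← hN]
  field_simp
  ring

instance (M : Tri N) : NeZero (M.a * M.a) := ⟨(Nat.mul_pos M.a_pos M.a_pos).ne'⟩

/-- The series of `τ ↦ j (M τ)` in the parameter of width `N`. -/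
def jTriSeries (M : Tri N) : LaurentSeries ℂ :=
  subst (Units.mk0 (Complex.exp (2 * Real.pi * I * M.b / M.d)) (Complex.exp_ne_zero _)) (M.a * M.a)
    (jqModC ℂ)

/-- `jTriSeries M` is the expansion of `τ ↦ j (M τ)`. -/
theorem hasExp_jTri (M : Tri N) : HasExp N (fun τ => jFun (M.map τ)) (jTriSeries M) :=
  hasExp_jFun.comp M.map M.tendsto_map _ _ (qParam_map M)

/-- The leading coefficient of `jTriSeries M` is nonzero. -/
theorem coeff_jTriSeries_ne_zero (M : Tri N) :
    (jTriSeries M).coeff (-((M.a * M.a : ℕ) : ℤ)) ≠ 0 := by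
  rw [show (-((M.a * M.a : ℕ) : ℤ)) = ((M.a * M.a : ℕ) : ℤ) * (-1) by ring, jTriSeries,
    subst_coeff_mul, ModularCurve.coeff_jqModC_neg_one, mul_one]
  exact Units.ne_zero _

/-- The coefficients of `jTriSeries M` below the leading one vanish. -/
theorem coeff_jTriSeries_of_lt (M : Tri N) {i : ℤ} (hi : i < -((M.a * M.a : ℕ) : ℤ)) :
    (jTriSeries M).coeff i = 0 := by
  by_cases h : ((M.a * M.a : ℕ) : ℤ) ∣ i
  · obtain ⟨m, rfl⟩ := h
    have hm : m < -1 := by
      have hpos : (0 : ℤ) < ((M.a * M.a : ℕ) : ℤ) := by exact_mod_cast Nat.mul_pos M.a_pos M.a_pos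
      nlinarith
    rw [jTriSeries, subst_coeff_mul, ← pow_one (jqModC ℂ),
      ModularCurve.coeff_jqModC_pow_of_lt ℂ (by simpa using hm), mul_zero]
  · exact subst_coeff_of_not_dvd _ _ _ h

theorem a_eq_of_jTri_eq {M M' : Tri N} (h : ∀ τ, jFun (M.map τ) = jFun (M'.map τ)) :
    M.a = M'.a := by
  have hs : jTriSeries M = jTriSeries M' :=
    (hasExp_jTri M).unique (NeZero.ne N) ((hasExp_jTri M').congr fun τ => (h τ).symm)
  rcases lt_trichotomy M.a M'.a with hlt | heq | hlt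
  · exact absurd ((congrArg (fun s : LaurentSeries ℂ => s.coeff _) hs.symm).trans
      (coeff_jTriSeries_of_lt M (i := -((M'.a * M'.a : ℕ) : ℤ))
        (neg_lt_neg (by exact_mod_cast Nat.mul_self_lt_mul_self hlt))))
      (coeff_jTriSeries_ne_zero M')
  · exact heq
  · exact absurd ((congrArg (fun s : LaurentSeries ℂ => s.coeff _) hs).trans
      (coeff_jTriSeries_of_lt M' (i := -((M.a * M.a : ℕ) : ℤ))
        (neg_lt_neg (by exact_mod_cast Nat.mul_self_lt_mul_self hlt))))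
      (coeff_jTriSeries_ne_zero M)

/-- `j (N γ τ) = j (N τ)` for all `τ` only for `γ ∈ Γ₀(N)`. -/
theorem mem_Gamma0_of_jN_eq {γ : SL(2, ℤ)} (h : ∀ τ, jN N (γ • τ) = jN N τ) :
    γ ∈ CongruenceSubgroup.Gamma0 N := by
  obtain ⟨h1, h2, h3, h4⟩ := ((Tri.top : Tri N).exists_smul γ).choose_spec.choose_spec
  have ha : (Tri.act γ (Tri.top : Tri N)).a = N :=
    (a_eq_of_jTri_eq (M' := (Tri.top : Tri N)) fun τ => (jN_smul N γ τ).symm.trans (h τ))
  change (Tri.actMatrix γ (Tri.top : Tri N)).1 1 0 * ((Tri.act γ (Tri.top : Tri N)).a : ℤ) =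
    ((Tri.top : Tri N).d : ℤ) * γ.1 1 0 at h2
  generalize (Tri.actMatrix γ (Tri.top : Tri N)).1 1 0 = e at h2
  rw [ha, top_d, Nat.cast_one, one_mul] at h2
  rw [CongruenceSubgroup.Gamma0_mem, ← h2]
  simp

/-- `jN N` is invariant under `Γ₀(N)`. -/
theorem jN_smul_of_mem {γ : SL(2, ℤ)} (hγ : γ ∈ CongruenceSubgroup.Gamma0 N) (τ : ℍ) :
    jN N (γ • τ) = jN N τ := by
  obtain ⟨c, hc⟩ : (N : ℤ) ∣ γ 1 0 :=
    (ZMod.intCast_zmod_eq_zero_iff_dvd _ _).mp (CongruenceSubgroup.Gamma0_mem.mp hγ)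
  set γ' : SL(2, ℤ) := ⟨!![γ 0 0, N * γ 0 1; c, γ 1 1], by
    rw [Matrix.det_fin_two_of]
    linear_combination (Matrix.det_fin_two γ.1).symm.trans γ.2 + (γ 0 1) * hc⟩ with hγ'
  have : (Tri.top : Tri N).map (γ • τ) = γ' • (Tri.top : Tri N).map τ := by
    refine UpperHalfPlane.ext ?_
    rw [Tri.coe_map, coe_specialLinearGroup_apply, coe_specialLinearGroup_apply, Tri.coe_map]
    have hc' : (γ.1 1 0 : ℂ) = N * c := by exact_mod_cast hc
    simp [hγ', top_a, top_b, top_d, hc']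
    ring
  rw [jN, this, jFun_invariant, jN]

end Fermat.Agent.ModularAnalytic
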