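import Fermat.Agent.ModularAnalytic.Conjugates
import Fermat.Agent.EichlerShimura.Defs

/-!
# Lagrange interpolation: `Γ₀(N)`-invariant functions are rational in `j τ` and `j (N τ)`
-/

set_option autoImplicit false

noncomputable section

open Filter Complex ModularCurve Polynomial
open UpperHalfPlane hiding I
open scoped Topology MatrixGroups Manifold

namespace Fermat.Agent.ModularAnalytic

open Fermat.Agent.ModularFunctionField Fermat.Agent.EichlerShimura

/-- Composition with an element of `SL(2, ℤ)`, as a ring endomorphism. -/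
def compHom (γ : SL(2, ℤ)) : (ℍ → ℂ) →+* (ℍ → ℂ) where
  toFun f τ := f (γ • τ)
  map_one' := rfl
  map_mul' _ _ := rfl
  map_zero' := rfl
  map_add' _ _ := rfl

@[simp] lemma compHom_apply (γ : SL(2, ℤ)) (f : ℍ → ℂ) (τ : ℍ) : compHom γ f τ = f (γ • τ) := rfl

lemma mdiff_sl_smul (γ : SL(2, ℤ)) : MDiff (fun τ : ℍ => γ • τ) := by
  simpa [ModularGroup.sl_moeb] using mdifferentiable_smul (g := (γ : GL (Fin 2) ℝ)) (by simp)

/-- Holomorphic functions with a Laurent expansion of width `M` at `i∞`. -/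
def expFun (M : ℕ) : Subring (ℍ → ℂ) where
  carrier := {f | MDiff f ∧ ∃ s, HasExp M f s}
  one_mem' := ⟨mdifferentiable_const, 1, HasExp.one M⟩
  zero_mem' := ⟨mdifferentiable_const, 0, HasExp.zero M⟩
  add_mem' := fun ⟨h, s, hs⟩ ⟨h', t, ht⟩ => ⟨h.add h', s + t, hs.add ht⟩
  neg_mem' := fun ⟨h, s, hs⟩ => ⟨h.neg, -s, hs.neg⟩
  mul_mem' := fun ⟨h, s, hs⟩ ⟨h', t, ht⟩ => ⟨h.mul h', s * t, hs.mul ht⟩

variable (N : ℕ) [NeZero N]

/-- Translates of a `Γ₀(N)`-invariant function, indexed by cosets. -/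
def translates (f : ℍ → ℂ) (hf : ∀ γ ∈ CongruenceSubgroup.Gamma0 N, ∀ τ, f (γ • τ) = f τ)
    (x : Cosets N) : ℍ → ℂ :=
  Quotient.liftOn x (fun g : SL(2, ℤ) => fun τ => f (g⁻¹ • τ)) fun g g' h => by
    funext τ
    have h' : g⁻¹ * g' ∈ CongruenceSubgroup.Gamma0 N := QuotientGroup.leftRel_apply.1 h
    rw [← hf _ h' (g'⁻¹ • τ), ← mul_smul, mul_inv_cancel_right]

variable {f : ℍ → ℂ} {hf : ∀ γ ∈ CongruenceSubgroup.Gamma0 N, ∀ τ, f (γ • τ) = f τ}

omit [NeZero N] in
lemma translates_mk (g : SL(2, ℤ)) :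
    translates N f hf (QuotientGroup.mk g) = fun τ => f (g⁻¹ • τ) := rfl

omit [NeZero N] in
lemma compHom_translates (γ : SL(2, ℤ)) (x : Cosets N) :
    compHom γ (translates N f hf x) = translates N f hf (γ⁻¹ • x) := by
  induction x using QuotientGroup.induction_on with
  | H g =>
    funext τ
    rw [MulAction.Quotient.smul_mk, compHom_apply, translates_mk, translates_mk, smul_eq_mul,
      mul_inv_rev, inv_inv]
    simp only [mul_smul]

omit [NeZero N] in
lemma translates_one : translates N f hf (QuotientGroup.mk 1) = f := by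
  funext τ
  simp [translates_mk]

/-- The translates of `j (N τ)`. -/
def jNTr : Cosets N → ℍ → ℂ := translates N (jN N) fun _ hγ => jN_smul_of_mem hγ

lemma compHom_jNTr (γ : SL(2, ℤ)) (x : Cosets N) :
    compHom γ (jNTr N x) = jNTr N (γ⁻¹ • x) := compHom_translates N γ x

lemma jNTr_one : jNTr N (QuotientGroup.mk 1) = jN N := translates_one N

lemma jNTr_mem (M : ℕ) (hM : N ∣ M) [NeZero M] (x : Cosets N) : jNTr N x ∈ expFun M := by
  induction x using QuotientGroup.induction_on with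
  | H g =>
    obtain ⟨k, hk⟩ := hM
    have : NeZero k := ⟨fun h => NeZero.ne M (by simp [hk, h])⟩
    refine ⟨?_, qExpand ℂ k (jTriSeries (Tri.act g⁻¹ (Tri.top : Tri N))), ?_⟩
    · have : jNTr N (QuotientGroup.mk g) = fun τ =>
          jFun ((Tri.act g⁻¹ (Tri.top : Tri N)).map τ) := funext fun τ => jN_smul N g⁻¹ τ
      rw [this]
      exact (Tri.act g⁻¹ (Tri.top : Tri N)).mdiff_comp mdiff_jFun
    · exact ((hasExp_jTri _).qExpand k hk (NeZero.ne N)).congr fun τ => (jN_smul N g⁻¹ τ).symm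

lemma jNTr_ne {x : Cosets N} (hx : x ≠ QuotientGroup.mk 1) : jNTr N x ≠ jN N := by
  induction x using QuotientGroup.induction_on with
  | H g =>
    intro h
    refine hx (QuotientGroup.eq.2 ?_)
    rw [mul_one]
    exact mem_Gamma0_of_jN_eq fun τ => congrFun h τ

/-- A monic product over cosets with one factor omitted. -/
def partialPoly [Fintype (Cosets N)] [DecidableEq (Cosets N)] (x : Cosets N) :
    Polynomial (ℍ → ℂ) :=
  ∏ y ∈ Finset.univ.erase x, (X - C (jNTr N y))

lemma map_partialPoly [Fintype (Cosets N)] [DecidableEq (Cosets N)] (γ : SL(2, ℤ)) (x : Cosets N) :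
    (partialPoly N x).map (compHom γ) = partialPoly N (γ⁻¹ • x) := by
  rw [partialPoly, partialPoly, Polynomial.map_prod]
  refine Finset.prod_equiv (MulAction.toPerm (γ⁻¹ : SL(2, ℤ))) (fun y => ?_) fun y _ => ?_
  · simp only [Finset.mem_erase, Finset.mem_univ, and_true, MulAction.toPerm_apply, ne_eq,
      smul_left_cancel_iff]
  · rw [MulAction.toPerm_apply, Polynomial.map_sub, map_X, map_C, compHom_jNTr]

/-- A polynomial whose coefficients are invariant holomorphic functions with expansions has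
coefficients polynomial in `j`. -/
lemma exists_poly_eq {M : ℕ} [NeZero M] (R : Polynomial (ℍ → ℂ))
    (hinv : ∀ γ : SL(2, ℤ), R.map (compHom γ) = R) (hmem : ∀ i, R.coeff i ∈ expFun M) :
    ∃ P : Polynomial (Polynomial ℂ), ∀ τ z, (R.map (Pi.evalRingHom (fun _ => ℂ) τ)).eval z =
      P.eval₂ (Polynomial.evalRingHom (jFun τ)) z := by
  have h : ∀ i, ∃ c : Polynomial ℂ, ∀ τ, R.coeff i τ = c.eval (jFun τ) := fun i => by
    obtain ⟨hol, s, hs⟩ := hmem i
    obtain ⟨c, -, hc⟩ := exists_polynomial_of_invariant (RingHom.id ℂ) Function.injective_id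
      (f := R.coeff i) (s := s) (fun γ τ => by
        have := congrFun (congrArg (fun Q : Polynomial (ℍ → ℂ) => Q.coeff i) (hinv γ)) τ
        simpa using this) hol (by simpa using hs)
    exact ⟨c, fun τ => by simpa using hc τ⟩
  choose c hc using h
  refine ⟨∑ i ∈ Finset.range (R.natDegree + 1), monomial i (c i), fun τ z => ?_⟩
  rw [Polynomial.eval₂_finsetSum, Polynomial.eval_map,
    Polynomial.eval₂_eq_sum_range' _ (Nat.lt_succ_self _)]
  refine Finset.sum_congr rfl fun i _ => ?_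
  rw [Polynomial.eval₂_monomial, Polynomial.coe_evalRingHom, ← hc]
  rfl

/-- The ring of polynomials with coefficients in `expFun M`. -/
lemma coeff_mem_of_mem {M : ℕ} {R : Polynomial (ℍ → ℂ)}
    (h : R ∈ Polynomial.lifts (expFun M).subtype) (i : ℕ) : R.coeff i ∈ expFun M := by
  obtain ⟨c, hc⟩ := (Polynomial.lifts_iff_coeff_lifts R).mp h i
  exact hc ▸ c.2

/-- Lagrange interpolation. -/
theorem exists_interpolation {L : ℕ} [NeZero L] (f : ℍ → ℂ) (hol : MDiff f)
    (hinv : ∀ γ ∈ CongruenceSubgroup.Gamma0 N, ∀ τ, f (γ • τ) = f τ)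
    (hexp : ∀ γ : SL(2, ℤ), ∃ s, HasExp L (fun τ => f (γ • τ)) s) :
    ∃ P Q : Polynomial (Polynomial ℂ),
      (∀ τ, f τ * P.eval₂ (Polynomial.evalRingHom (jFun τ)) (jN N τ) =
        Q.eval₂ (Polynomial.evalRingHom (jFun τ)) (jN N τ)) ∧
      ∃ τ, P.eval₂ (Polynomial.evalRingHom (jFun τ)) (jN N τ) ≠ 0 := by
  classical
  have : Fintype (Cosets N) := Fintype.ofFinite _
  set M := N * L
  have hMN : N ∣ M := dvd_mul_right N L
  have hfx : ∀ x : Cosets N, translates N f hinv x ∈ expFun M := fun x => by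
    induction x using QuotientGroup.induction_on with
    | H g =>
      obtain ⟨s, hs⟩ := hexp g⁻¹
      refine ⟨?_, qExpand ℂ N s, hs.qExpand N (mul_comm N L) (NeZero.ne L)⟩
      rw [translates_mk]
      exact hol.comp (mdiff_sl_smul g⁻¹)
  have hlift : ∀ x, partialPoly N x ∈ Polynomial.lifts (expFun M).subtype := fun x =>
    Subsemiring.prod_mem _ fun y _ => ⟨X - C ⟨_, jNTr_mem N M hMN y⟩, by simp⟩
  set P₀ : Polynomial (ℍ → ℂ) := ∑ x, partialPoly N x
  set Q₀ : Polynomial (ℍ → ℂ) := ∑ x, C (translates N f hinv x) * partialPoly N x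
  have hP₀ : ∀ γ, P₀.map (compHom γ) = P₀ := fun γ => by
    simp only [P₀, Polynomial.map_sum, map_partialPoly]
    exact Equiv.sum_comp (MulAction.toPerm (γ⁻¹ : SL(2, ℤ))) fun x => partialPoly N x
  have hQ₀ : ∀ γ, Q₀.map (compHom γ) = Q₀ := fun γ => by
    simp only [Q₀, Polynomial.map_sum, Polynomial.map_mul, map_C, map_partialPoly,
      compHom_translates]
    exact Equiv.sum_comp (MulAction.toPerm (γ⁻¹ : SL(2, ℤ)))
      fun x => C (translates N f hinv x) * partialPoly N x
  obtain ⟨P, hP⟩ := exists_poly_eq P₀ hP₀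
    (coeff_mem_of_mem (Subsemiring.sum_mem _ fun x _ => hlift x))
  obtain ⟨Q, hQ⟩ := exists_poly_eq Q₀ hQ₀ (coeff_mem_of_mem (Subsemiring.sum_mem _ fun x _ =>
    Subsemiring.mul_mem _ ⟨C ⟨_, hfx x⟩, by simp⟩ (hlift x)))
  set o : Cosets N := QuotientGroup.mk 1
  have hval : ∀ x τ, ((partialPoly N x).map (Pi.evalRingHom (fun _ => ℂ) τ)).eval (jN N τ) =
      ∏ y ∈ Finset.univ.erase x, (jN N τ - jNTr N y τ) := fun x τ => by
    simp [partialPoly, Polynomial.map_prod, Polynomial.eval_prod]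
  have hzero : ∀ x, x ≠ o → ∀ τ,
      ((partialPoly N x).map (Pi.evalRingHom (fun _ => ℂ) τ)).eval (jN N τ) = 0 := fun x hx τ => by
    rw [hval, Finset.prod_eq_zero (Finset.mem_erase.mpr ⟨Ne.symm hx, Finset.mem_univ o⟩)]
    rw [jNTr_one, sub_self]
  have hPτ : ∀ τ, P.eval₂ (Polynomial.evalRingHom (jFun τ)) (jN N τ) =
      ∏ y ∈ Finset.univ.erase o, (jN N τ - jNTr N y τ) := fun τ => by
    rw [← hP, Polynomial.map_sum, Polynomial.eval_finsetSum, Finset.sum_eq_single o
      (fun x _ hx => hzero x hx τ) (by simp), hval]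
  refine ⟨P, Q, fun τ => ?_, ?_⟩
  · rw [hPτ, ← hQ, Polynomial.map_sum, Polynomial.eval_finsetSum, Finset.sum_eq_single o
      (fun x _ hx => by rw [Polynomial.map_mul, Polynomial.eval_mul, hzero x hx τ, mul_zero])
      (by simp)]
    rw [Polynomial.map_mul, Polynomial.eval_mul, hval, map_C, Polynomial.eval_C]
    show _ = translates N f hinv o τ * _
    rw [translates_one]
  · by_contra h
    push Not at h
    have hz : ∏ y ∈ Finset.univ.erase o, (jN N - jNTr N y) = 0 := by
      funext τ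
      rw [Finset.prod_apply]
      simpa using (hPτ τ).symm.trans (h τ)
    obtain ⟨y, hy, hy'⟩ := (UpperHalfPlane.prod_eq_zero_iff fun y _ =>
      (mdiff_jN N).sub (jNTr_mem N N dvd_rfl y).1).mp hz
    exact jNTr_ne N (Finset.mem_erase.mp hy).1 (sub_eq_zero.mp hy').symm

end Fermat.Agent.ModularAnalytic
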